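import Fermat.Agent.SS.Mod.S34Wire
import Fermat.Agent.SS.Top35.Push

/-!
# S33 / GEO : the interface (NEW-p)

`N = M p`, `p ∤ M`.  On the `p`-torsion classes of `J₀(M p)` which are toric (for the two reductions at
`A | p`) and die under both push-forwards to `J₀(M)`, the inertia group `I_A` acts through the mod `p`
cyclotomic character.  (Needed for `p` odd and `4 ∣ M` or `9 ∣ M`.)  Consumed by S33 and by S40 (GeoA).
-/

set_option autoImplicit false

noncomputable section

open AlgebraicCurve ModularCurve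

namespace Fermat.Agent.S33

open Fermat.Agent.SS
open Fermat.Agent.RED hiding Kb
open Fermat.Agent.S24
open Fermat.Agent.RED.Cusp (Fb jb)

/-- **Interface (NEW-p)**. -/
def NewP (M p : ℕ) [NeZero M] [Fact p.Prime] (hpM : ¬ p ∣ M) : Prop :=
  ∀ (A : ValuationSubring Kb), A.LiesOverPrime p →
    ∀ [CharP (IsLocalRing.ResidueField A) p] [IsAlgClosed (IsLocalRing.ResidueField A)],
      ∀ τ ∈ A.inertiaSubgroupIn ℚ, ∀ a : ℕ, (∀ ζ : Kb, ζ ^ p = 1 → τ ζ = ζ ^ a) →
        ∀ y : JZero (M * p), p • y = 0 →
          IsToric (twoRed hpM (IsLocalRing.residue A) IsLocalRing.residue_surjective) p y →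
          pushA M p y = 0 → pushB M p y = 0 → τ • y = a • y

end Fermat.Agent.S33
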