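import Fermat.Agent.SS.Abs.Main

/-!
# S33 / GEO : formal properties of `SS.IsToric`   (WP **GEO-TORIC**)

`T : TwoRed K F k Fb`.  `IsToric T m y` : `y = [D]`, `m D = div f`, `f ∈ O₁ ∩ O₂`,
`red f = (a₁ ^ m, a₂ ^ m)`, `a₁ a₂ ≠ 0`.

* `isToric_zero` : `D = 0`, `f = 1`, `a = (1, 1)`.
* `IsToric.add` : `D + D'`, `f f'`, `(a₁ a₁', a₂ a₂')` (`Place.ord_mul`; `f, f' ≠ 0` because their
  reductions are `≠ 0`; if `m = 0` the statement is still true with the same data).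
* `IsToric.neg` : `-D`, `f⁻¹` (`RedData.inv_mem_of_red_ne_zero`, `RedData.red_inv`), `(a₁⁻¹, a₂⁻¹)`.
* `IsToric.nsmul_eq_zero` : `m [D] = [m D] = [div f] = 0` (cf. `SS.pic0_mk_nsmul`, and the proof of
  `hy` in `SS.steinKum_desc`).
* `IsToric.of_pow` : `y = [D]`, `p ^ (j+1) D = div f`, `red f = (a₁ ^ p ^ (j+1), a₂ ^ p ^ (j+1))`, and
  `p y = 0`, i.e. `p D = div g` (`SS.isPrincipal_of_pic0_mk_eq_zero`).  Then `f / g ^ p ^ j` has trivial
  divisor, so it is a constant `c ≠ 0` (`L(0) = K` : `RED.ell_le_degree_add_one'` / `S27 L_zero_eq`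
  style; this is where `hx` is used); `c = c' ^ p ^ j` (`IsAlgClosed K`); replace `g` by `c' g`:
  `f = g ^ p ^ j`.  `g ∈ O_i` and `g⁻¹ ∈ O_i` since valuation rings are integrally closed
  (`g ^ n ∈ O → g ∈ O` : `ValuationSubring`, `Valuation.map_pow`, `pow_le_one_iff`), and
  `(red_i g) ^ p ^ j = (a_i ^ p) ^ p ^ j`, so `red_i g = a_i ^ p` (Frobenius is injective on the field
  `Fb` of characteristic `p` : `frobenius_inj`, `iterateFrobenius`, or `sub_pow_char_pow`).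
-/

set_option autoImplicit false

open AlgebraicCurve

namespace Fermat.Agent.S33

open Fermat.Agent.SS Fermat.Agent.RED Fermat.Agent.S24

variable {K F k Fb : Type*} [Field K] [Field F] [Algebra K F] [Field k] [Field Fb] [Algebra k Fb]
  {T : TwoRed K F k Fb}

/-- an element of `O₁ ∩ O₂` with nonzero first reduction is nonzero. -/
theorem coe_ne_zero_of_red_toric {f : T.O} {c d : Fb} (hc : c ≠ 0) (h : T.red f = (c, d)) :
    (f : F) ≠ 0 := by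
  intro h0
  have h1 : f = 0 := Subtype.ext h0
  rw [h1, map_zero] at h
  exact hc (congrArg Prod.fst h).symm

theorem isToric_zero (m : ℕ) : IsToric T m 0 := by
  refine ⟨0, 1, 1, 1, rfl, fun v => ?_, one_ne_zero, one_ne_zero, ?_⟩
  · show (m : ℤ) * (0 : Divisor K F) v = v.ord (1 : F)
    rw [v.ord_one, Finsupp.zero_apply, mul_zero]
  · rw [map_one, one_pow]
    rfl

theorem IsToric.add {m : ℕ} {x y : Pic0 K F} (hx : IsToric T m x) (hy : IsToric T m y) :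
    IsToric T m (x + y) := by
  obtain ⟨D, f, a₁, a₂, rfl, hord, ha₁, ha₂, hred⟩ := hx
  obtain ⟨D', f', a₁', a₂', rfl, hord', ha₁', ha₂', hred'⟩ := hy
  have hf0 : (f : F) ≠ 0 := coe_ne_zero_of_red_toric (pow_ne_zero m ha₁) hred
  have hf0' : (f' : F) ≠ 0 := coe_ne_zero_of_red_toric (pow_ne_zero m ha₁') hred'
  refine ⟨D + D', f * f', a₁ * a₁', a₂ * a₂', rfl, fun v => ?_, mul_ne_zero ha₁ ha₁',
    mul_ne_zero ha₂ ha₂', ?_⟩
  · show (m : ℤ) * ((D : Divisor K F) + (D' : Divisor K F)) v = v.ord ((f : F) * (f' : F))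
    rw [Finsupp.add_apply, mul_add, hord, hord', v.ord_mul hf0 hf0']
  · rw [map_mul, hred, hred', mul_pow, mul_pow]
    rfl

theorem IsToric.neg {m : ℕ} {x : Pic0 K F} (hx : IsToric T m x) : IsToric T m (-x) := by
  obtain ⟨D, f, a₁, a₂, rfl, hord, ha₁, ha₂, hred⟩ := hx
  have h₁ : T.R₁.red ⟨f, f.2.1⟩ = a₁ ^ m := congrArg Prod.fst hred
  have h₂ : T.R₂.red ⟨f, f.2.2⟩ = a₂ ^ m := congrArg Prod.snd hred
  have hn₁ : T.R₁.red ⟨f, f.2.1⟩ ≠ 0 := h₁ ▸ pow_ne_zero m ha₁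
  have hn₂ : T.R₂.red ⟨f, f.2.2⟩ ≠ 0 := h₂ ▸ pow_ne_zero m ha₂
  refine ⟨-D, ⟨(f : F)⁻¹, T.R₁.inv_mem_of_red_ne_zero hn₁, T.R₂.inv_mem_of_red_ne_zero hn₂⟩,
    a₁⁻¹, a₂⁻¹, rfl, fun v => ?_, inv_ne_zero ha₁, inv_ne_zero ha₂, ?_⟩
  · show (m : ℤ) * (-(D : Divisor K F)) v = v.ord (f : F)⁻¹
    rw [Finsupp.neg_apply, mul_neg, hord, v.ord_inv]
  · apply Prod.ext
    · show T.R₁.red ⟨(f : F)⁻¹, _⟩ = a₁⁻¹ ^ m
      rw [T.R₁.red_inv hn₁, h₁, inv_pow]
    · show T.R₂.red ⟨(f : F)⁻¹, _⟩ = a₂⁻¹ ^ m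
      rw [T.R₂.red_inv hn₂, h₂, inv_pow]

theorem IsToric.nsmul_eq_zero {m : ℕ} {x : Pic0 K F} (hx : IsToric T m x) : m • x = 0 := by
  obtain ⟨D, f, a₁, a₂, rfl, hord, ha₁, ha₂, hred⟩ := hx
  have hf0 : (f : F) ≠ 0 := coe_ne_zero_of_red_toric (pow_ne_zero m ha₁) hred
  rw [← pic0_mk_nsmul, ← Pic0.mk_zero]
  apply pic0_mk_eq_mk_of_isPrincipal
  refine ⟨f, hf0, fun v => ?_⟩
  rw [← hord v]
  show (m • (D : Divisor K F) - 0) v = _
  rw [sub_zero, Finsupp.smul_apply, nsmul_eq_mul]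

/-- the subgroup of the toric classes. -/
def toricSub (T : TwoRed K F k Fb) (m : ℕ) : AddSubgroup (Pic0 K F) where
  carrier := {x | IsToric T m x}
  zero_mem' := isToric_zero m
  add_mem' := fun hx hy => IsToric.add hx hy
  neg_mem' := fun hx => IsToric.neg hx

theorem mem_toricSub {m : ℕ} {x : Pic0 K F} : x ∈ toricSub T m ↔ IsToric T m x := Iff.rfl

/-- valuation rings are integrally closed (`n`-th roots). -/
theorem mem_of_pow_mem_toric (O : ValuationSubring F) {g : F} {n : ℕ} (hn : n ≠ 0)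
    (h : g ^ n ∈ O) : g ∈ O := by
  rw [← ValuationSubring.valuation_le_one_iff] at h ⊢
  rw [map_pow] at h
  exact (pow_le_one_iff hn).1 h

theorem IsToric.of_pow [IsAlgClosed K] {x : F} (hx : IsSepParam K x) {p : ℕ} [Fact p.Prime]
    [CharP Fb p] {j : ℕ} {y : Pic0 K F} (h : IsToric T (p ^ (j + 1)) y) (hy : p • y = 0) :
    IsToric T p y := by
  obtain ⟨D, f, a₁, a₂, rfl, hord, ha₁, ha₂, hred⟩ := h
  have hp0 : p ≠ 0 := (Fact.out : p.Prime).ne_zero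
  have hpj : p ^ j ≠ 0 := pow_ne_zero _ hp0
  have hf0 : (f : F) ≠ 0 := coe_ne_zero_of_red_toric (pow_ne_zero _ ha₁) hred
  rw [← pic0_mk_nsmul] at hy
  obtain ⟨g, hg0, hgD⟩ := isPrincipal_of_pic0_mk_eq_zero hy
  have hgD' : ∀ v : Place K F, (p : ℤ) * (D : Divisor K F) v = v.ord g := by
    intro v
    rw [← hgD v]
    show _ = (p • (D : Divisor K F)) v
    rw [Finsupp.smul_apply, nsmul_eq_mul]
  -- the constant
  have hc : (f : F) * (g ^ p ^ j)⁻¹ ∈ Set.range (algebraMap K F) := by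
    apply hx.mem_range_of_forall_ord_nonneg
    intro v
    rw [v.ord_mul hf0 (inv_ne_zero (pow_ne_zero _ hg0)), v.ord_inv, ← zpow_natCast, v.ord_zpow,
      ← hord v, ← hgD' v]
    push_cast
    apply le_of_eq
    ring
  obtain ⟨c, hc⟩ := hc
  obtain ⟨c', hc'⟩ := IsAlgClosed.exists_pow_nat_eq c (Nat.pos_of_ne_zero hpj)
  have hc0 : c ≠ 0 := by
    rintro rfl
    rw [map_zero] at hc
    exact mul_ne_zero hf0 (inv_ne_zero (pow_ne_zero _ hg0)) hc.symm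
  have hc'0 : c' ≠ 0 := by
    rintro rfl
    rw [zero_pow hpj] at hc'
    exact hc0 hc'.symm
  set g' : F := algebraMap K F c' * g with hg'
  have hg'0 : g' ≠ 0 := mul_ne_zero (by rwa [Ne, map_eq_zero]) hg0
  have hfg : g' ^ p ^ j = (f : F) := by
    rw [hg', mul_pow, ← map_pow, hc', hc, mul_assoc, inv_mul_cancel₀ (pow_ne_zero _ hg0), mul_one]
  have hm₁ : g' ∈ T.R₁.O := mem_of_pow_mem_toric _ hpj (hfg ▸ f.2.1)
  have hm₂ : g' ∈ T.R₂.O := mem_of_pow_mem_toric _ hpj (hfg ▸ f.2.2)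
  have h₁ : T.R₁.red ⟨f, f.2.1⟩ = a₁ ^ p ^ (j + 1) := congrArg Prod.fst hred
  have h₂ : T.R₂.red ⟨f, f.2.2⟩ = a₂ ^ p ^ (j + 1) := congrArg Prod.snd hred
  refine ⟨D, ⟨g', hm₁, hm₂⟩, a₁, a₂, rfl, fun v => ?_, ha₁, ha₂, ?_⟩
  · show (p : ℤ) * (D : Divisor K F) v = v.ord g'
    rw [hg', v.ord_mul (by rwa [Ne, map_eq_zero]) hg0, Place.ord_algebraMap, zero_add, hgD']
  · apply Prod.ext
    · show T.R₁.red ⟨g', hm₁⟩ = a₁ ^ p
      apply iterateFrobenius_inj Fb p j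
      rw [iterateFrobenius_def, iterateFrobenius_def, ← map_pow, ← pow_mul, ← pow_succ', ← h₁]
      exact congrArg T.R₁.red (Subtype.ext hfg)
    · show T.R₂.red ⟨g', hm₂⟩ = a₂ ^ p
      apply iterateFrobenius_inj Fb p j
      rw [iterateFrobenius_def, iterateFrobenius_def, ← map_pow, ← pow_mul, ← pow_succ', ← h₂]
      exact congrArg T.R₂.red (Subtype.ext hfg)

end Fermat.Agent.S33
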