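import Fermat.Agent.S33.NT
import Fermat.Agent.S32.Wire

/-!
# S33 / GEO : the abstract dévissage

`X → Y × Y` (two push-forwards), `Y` is `Ord`, `Tor ≤ X` contains all `τ x - x`, and some `δ ∈ I` has no
non zero fixed point on `Tor ∩ ker φ₁ ∩ ker φ₂`.  Then `X` is `Ord`.
-/

set_option autoImplicit false
set_option linter.style.haveILetI false

namespace Fermat.Agent.S33

open Fermat.Agent.S32 (torsAction)

variable {G : Type*} [Group G] {I : Subgroup G}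

theorem Ord.of_devissage {X Y : Type*} [AddCommGroup X] [DistribMulAction G X] [AddCommGroup Y]
    [DistribMulAction G Y] [Finite X] (φ₁ φ₂ : X →+ Y)
    (h₁ : ∀ τ ∈ I, ∀ x, φ₁ (τ • x) = τ • φ₁ x) (h₂ : ∀ τ ∈ I, ∀ x, φ₂ (τ • x) = τ • φ₂ x)
    (Tor : AddSubgroup X) (ha : ∀ τ ∈ I, ∀ x : X, τ • x - x ∈ Tor) (hb : Ord I Y)
    {δ : G} (hδ : δ ∈ I) (hc : ∀ x ∈ Tor, φ₁ x = 0 → φ₂ x = 0 → δ • x = x → x = 0) : Ord I X := by
  obtain ⟨Y₀, hs, ht, hn⟩ := hb
  have hTor : Stable I Tor := fun τ hτ x hx => by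
    have := Tor.add_mem (ha τ hτ x) hx
    rwa [sub_add_cancel] at this
  refine ⟨Tor ⊓ Y₀.comap φ₁ ⊓ Y₀.comap φ₂, (hTor.inf (hs.comap φ₁ h₁)).inf (hs.comap φ₂ h₂),
    fun τ hτ x => ⟨⟨ha τ hτ x, ?_⟩, ?_⟩, ?_⟩
  · show φ₁ (τ • x - x) ∈ Y₀
    rw [map_sub, h₁ τ hτ]
    exact ht τ hτ _
  · show φ₂ (τ • x - x) ∈ Y₀
    rw [map_sub, h₂ τ hτ]
    exact ht τ hτ _
  · refine NT.of_exact φ₁ h₁ (NT.of_exact φ₂ h₂ ?_ (hn.mono ?_)) (hn.mono ?_)
    · refine nt_of_injective hδ ?_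
      rintro y ⟨⟨⟨⟨hy, -⟩, -⟩, hy1⟩, hy2⟩ hfix
      exact hc y hy hy1 hy2 hfix
    · rintro _ ⟨y, hy, rfl⟩
      exact hy.1.2
    · rintro _ ⟨y, hy, rfl⟩
      exact hy.1.2

/-- the map induced on torsion. -/
def torsMap {J J' : Type*} [AddCommGroup J] [AddCommGroup J'] (φ : J →+ J') (a : ℤ) :
    Submodule.torsionBy ℤ J a →+ Submodule.torsionBy ℤ J' a where
  toFun x := ⟨φ (x : J), by
    rw [Submodule.mem_torsionBy_iff, ← map_zsmul, (Submodule.mem_torsionBy_iff _ _).1 x.2, map_zero]⟩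
  map_zero' := Subtype.ext (map_zero φ)
  map_add' x y := Subtype.ext (map_add φ (x : J) (y : J))

@[simp] theorem coe_torsMap {J J' : Type*} [AddCommGroup J] [AddCommGroup J'] (φ : J →+ J') (a : ℤ)
    (x : Submodule.torsionBy ℤ J a) : (torsMap φ a x : J') = φ (x : J) := rfl

/-- the dévissage for torsion subgroups. -/
theorem ord_tors_of_devissage {J J' : Type*} [AddCommGroup J] [DistribMulAction G J]
    [AddCommGroup J'] [DistribMulAction G J'] (a : ℤ) [Finite (Submodule.torsionBy ℤ J a)]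
    (φ₁ φ₂ : J →+ J')
    (h₁ : ∀ τ ∈ I, ∀ x, φ₁ (τ • x) = τ • φ₁ x) (h₂ : ∀ τ ∈ I, ∀ x, φ₂ (τ • x) = τ • φ₂ x)
    (Tor : AddSubgroup J) (ha : ∀ τ ∈ I, ∀ x : J, a • x = 0 → τ • x - x ∈ Tor)
    (hb : letI := torsAction G J' a; Ord I (Submodule.torsionBy ℤ J' a))
    {δ : G} (hδ : δ ∈ I)
    (hc : ∀ x ∈ Tor, a • x = 0 → φ₁ x = 0 → φ₂ x = 0 → δ • x = x → x = 0) :
    letI := torsAction G J a; Ord I (Submodule.torsionBy ℤ J a) := by
  letI := torsAction G J a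
  letI := torsAction G J' a
  refine Ord.of_devissage (torsMap φ₁ a) (torsMap φ₂ a)
    (fun τ hτ x => Subtype.ext (h₁ τ hτ x)) (fun τ hτ x => Subtype.ext (h₂ τ hτ x))
    (Tor.comap (Submodule.torsionBy ℤ J a).subtype.toAddMonoidHom)
    (fun τ hτ x => ha τ hτ x ((Submodule.mem_torsionBy_iff _ _).1 x.2)) hb hδ ?_
  intro x hx e1 e2 e3
  exact Subtype.ext (hc x hx ((Submodule.mem_torsionBy_iff _ _).1 x.2) (congrArg Subtype.val e1)
    (congrArg Subtype.val e2) (congrArg Subtype.val e3))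

/-- transport along an equivariant map which is injective on torsion. -/
theorem ord_tors_of_injective {J J' : Type*} [AddCommGroup J] [DistribMulAction G J]
    [AddCommGroup J'] [DistribMulAction G J'] (a : ℤ) (φ : J →+ J')
    (h₁ : ∀ τ ∈ I, ∀ x, φ (τ • x) = τ • φ x) (hinj : ∀ x : J, a • x = 0 → φ x = 0 → x = 0)
    (hb : letI := torsAction G J' a; Ord I (Submodule.torsionBy ℤ J' a)) :
    letI := torsAction G J a; Ord I (Submodule.torsionBy ℤ J a) := by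
  letI := torsAction G J a
  letI := torsAction G J' a
  refine Ord.of_injective hb (torsMap φ a) ?_ (fun τ hτ x => Subtype.ext (h₁ τ hτ x))
  rw [injective_iff_map_eq_zero]
  intro x hx
  exact Subtype.ext (hinj x ((Submodule.mem_torsionBy_iff _ _).1 x.2) (congrArg Subtype.val hx))

/-- reduction to elements of order `p`. -/
theorem eq_zero_of_pow_nsmul {J : Type*} [AddCommGroup J] (S : AddSubgroup J) {p : ℕ}
    (h : ∀ y ∈ S, p • y = 0 → y = 0) (k : ℕ) : ∀ x ∈ S, p ^ k • x = 0 → x = 0 := by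
  induction k with
  | zero => intro x _ hx; simpa using hx
  | succ k ih =>
    intro x hx hk
    refine h x hx (ih (p • x) (S.nsmul_mem hx p) ?_)
    rwa [smul_smul, ← pow_succ]

end Fermat.Agent.S33
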