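import Fermat.Agent.S33.Geo.Defs
import Fermat.Agent.S33.Geo.Abs
import Fermat.Agent.S33.Geo.Toric
import Fermat.Agent.S33.Ray.Good
import Fermat.Agent.S33.Wire
import Fermat.Agent.SS.Top35.CompatF
import Fermat.Agent.SS.Top35.Geo
import Fermat.Agent.FLAT.Inst.Tors

/-!
# S33 / GEO : `OrdJ N p` from (NEW-p)
-/

set_option autoImplicit false
set_option linter.style.haveILetI false
set_option linter.unusedSectionVars false

noncomputable section

open AlgebraicCurve ModularCurve IsLocalRing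

namespace Fermat.Agent.S33

open Fermat.Agent.SS Fermat.Agent.S32
open Fermat.Agent.RED hiding Kb
open Fermat.Agent.S24
open Fermat.Agent.RED.Cusp (Fb jb)

/-- an element of the inertia group at `p` which acts non trivially on `μ_p`. -/
theorem exists_inertia_pow {p : ℕ} (hp : p.Prime) (hp2 : p ≠ 2) (P : ValuationSubring Kb)
    (hP : P.LiesOverPrime p) :
    ∃ δ ∈ P.inertiaSubgroupIn ℚ, ∃ a : ℕ, (∀ ζ : Kb, ζ ^ p = 1 → δ ζ = ζ ^ a) ∧
      ¬ a ≡ 1 [MOD p] := by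
  have : Fact p.Prime := ⟨hp⟩
  obtain ⟨μ, hμ⟩ := MAZ.exists_primitiveRoot_Qb hp.ne_zero
  obtain ⟨σ, hσ⟩ := exists_apply_ne_of_primitiveRoot hp hp2 hμ
  obtain ⟨τ, hτ, hστ⟩ := MAZ.exists_inertia_mul_mem_fixMu hp hP σ
  have hτμ : τ μ = σ μ := by
    have h2 : (τ μ) ^ p = 1 := by rw [← map_pow, hμ.pow_eq_one, map_one]
    have h3 := hστ (τ μ) h2
    rw [AlgEquiv.mul_apply, ← AlgEquiv.mul_apply τ⁻¹, inv_mul_cancel] at h3
    exact h3.symm
  set a : ℕ := ((hμ.autToPow ℚ τ : (ZMod p)ˣ) : ZMod p).val with ha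
  have hspec : μ ^ a = τ μ := hμ.autToPow_spec ℚ τ
  refine ⟨τ, hτ, a, fun ν hν => ?_, fun h8 => ?_⟩
  · obtain ⟨i, -, rfl⟩ := hμ.eq_pow_of_pow_eq_one hν
    rw [map_pow, ← hspec, ← pow_mul, ← pow_mul, mul_comm]
  · apply hσ
    rw [← hτμ, ← hspec]
    have h9 : μ ^ a = μ ^ 1 := by
      rw [← pow_mod_orderOf μ a, ← pow_mod_orderOf μ 1, ← hμ.eq_orderOf]
      exact congrArg _ h8
    rw [h9, pow_one]

theorem eq_zero_of_nsmul_eq {J : Type*} [AddCommGroup J] {p a : ℕ} (hp : p.Prime)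
    (ha : ¬ a ≡ 1 [MOD p]) {y : J} (h1 : p • y = 0) (h2 : a • y = y) : y = 0 := by
  have hnd : ¬ (p : ℤ) ∣ (a : ℤ) - 1 := by
    intro h
    apply ha
    exact ((Nat.modEq_iff_dvd).2 (by simpa using h)).symm
  obtain ⟨u, v, huv⟩ := ((Nat.prime_iff_prime_int.1 hp).coprime_iff_not_dvd).2 hnd
  have h3 : ((a : ℤ) - 1) • y = 0 := by
    rw [sub_smul, one_smul, natCast_zsmul, h2, sub_self]
  have h4 : ((p : ℤ)) • y = 0 := by rw [natCast_zsmul, h1]
  calc y = (u * (p : ℤ) + v * ((a : ℤ) - 1)) • y := by rw [huv, one_smul]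
    _ = 0 := by rw [add_smul, mul_smul, mul_smul, h3, h4, smul_zero, smul_zero, add_zero]

theorem zpow_smul_eq {J : Type*} [AddCommGroup J] (p k : ℕ) (y : J) :
    ((p : ℤ) ^ k) • y = (p ^ k : ℕ) • y := by
  rw [← Nat.cast_pow, natCast_zsmul]

/-- `Ord` at the rigid levels. -/
theorem ord_rigid {M p : ℕ} [NeZero M] [hp : Fact p.Prime] (hpM : ¬ p ∣ M)
    (h49 : 4 ∣ M ∨ 9 ∣ M) (hp2 : p ≠ 2) (hNew : NewP M p hpM) (k : ℕ)
    (P : ValuationSubring Kb) (hP : P.LiesOverPrime p) :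
    letI := torsAction GQ (JZero (M * p)) ((p : ℤ) ^ k)
    Ord (P.inertiaSubgroupIn ℚ) (Submodule.torsionBy ℤ (JZero (M * p)) ((p : ℤ) ^ k)) := by
  haveI : IsAlgClosed (ResidueField P) := GalEq.isAlgClosed_residueField P
  haveI : CharP (ResidueField P) p := GalEq.charP_residueField hp.out hP
  obtain ⟨𝒩, hI, -⟩ := exists_nodalData_compat hpM P h49 hP
  obtain ⟨δ, hδ, a, ha, ha1⟩ := exists_inertia_pow hp.out hp2 P hP
  haveI : Finite (Submodule.torsionBy ℤ (JZero (M * p)) ((p : ℤ) ^ k)) :=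
    FLAT.finite_tors (M * p) p k
  refine ord_tors_of_devissage ((p : ℤ) ^ k) (pushA M p) (pushB M p)
    (fun τ _ x => pushA_smul M p τ x) (fun τ _ x => pushB_smul M p τ x)
    (toricSub (twoRed hpM (residue P) residue_surjective) (p ^ k)) ?_
    (Ray.ord_good M p hp.out hp2 hpM k P hP) hδ ?_
  · intro τ hτ x hx
    rw [zpow_smul_eq] at hx
    exact isToric_smul_sub 𝒩 (RB.isSepParam_jF (M * p)) (pow_ne_zero _ hp.out.ne_zero) (hI τ hτ)
      (y := x) hx
  · intro x hx hk e1 e2 e3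
    rw [zpow_smul_eq] at hk
    cases k with
    | zero => simpa using hk
    | succ j =>
      haveI : CharP (Fb (ResidueField P) M) p :=
        charP_of_injective_algebraMap (algebraMap (ResidueField P) (Fb (ResidueField P) M)).injective p
      let S : AddSubgroup (JZero (M * p)) :=
        toricSub (twoRed hpM (residue P) residue_surjective) (p ^ (j + 1)) ⊓ (pushA M p).ker ⊓
          (pushB M p).ker ⊓
          (DistribSMul.toAddMonoidHom (JZero (M * p)) δ - AddMonoidHom.id _).ker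
      refine eq_zero_of_pow_nsmul S ?_ (j + 1) x
        ⟨⟨⟨hx, e1⟩, e2⟩, by
          show δ • x - x = 0
          rw [e3, sub_self]⟩ hk
      rintro y ⟨⟨⟨hy, f1⟩, f2⟩, f3⟩ hpy
      have f3' : δ • y = y := by
        have f4 : δ • y - y = 0 := f3
        exact sub_eq_zero.1 f4
      have ht := IsToric.of_pow (RB.isSepParam_jF (M * p)) hy hpy
      have h1 := hNew P hP δ hδ a ha y hpy ht f1 f2
      exact eq_zero_of_nsmul_eq hp.out ha1 hpy (h1.symm.trans f3')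

/-- **`OrdJ N p` from (NEW-p)** at the rigid levels. -/
theorem ordJ_of_newP {N p : ℕ} [NeZero N] (hp : p.Prime) (hp2 : p ≠ 2)
    (hN : p ∣ N ∧ ¬ p ^ 2 ∣ N)
    (hNew : ∀ (M : ℕ) [NeZero M] [Fact p.Prime] (hpM : ¬ p ∣ M), (4 ∣ M ∨ 9 ∣ M) → NewP M p hpM) :
    OrdJ N p := by
  intro k P hP
  obtain ⟨M, hM, hpM, h49, hNM⟩ := exists_level hp hN.1 hN.2
  haveI : NeZero M := ⟨hM⟩
  haveI : Fact p.Prime := ⟨hp⟩
  obtain ⟨B, hBσ, hBinj, -⟩ := exists_pull N (aux p) (M * p) (aux_eq p) hNM.symm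
  refine ord_tors_of_injective ((p : ℤ) ^ k) B (fun τ _ x => hBσ τ x) (fun x hx hB => ?_)
    (ord_rigid hpM h49 hp2 (hNew M hpM h49) k P hP)
  rw [zpow_smul_eq] at hx
  exact hBinj (p ^ k) (pow_ne_zero _ hp.ne_zero) x hx hB

end Fermat.Agent.S33
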